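import Mathlib
import Fermat.Agent.H73.ChebBridgeCore

/-!
# P-CHEB phase 2, row 450 (CH2-SUM), algebraic core (Mathlib + H73.ChebBridgeCore)

* `ch2_card_mul_card_centralizer_le` : a set of conjugates of `σ` has at most
  `|G| / |Z(σ)|` elements.
* `ch2_isConj_of_frob` : two Frobenius elements at primes over the same unramified rational prime
  are conjugate.
-/

set_option autoImplicit false

open NumberField Ideal IsDedekindDomain
open scoped Pointwise

namespace Fermat.Agent.H50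

/-- a finite set of conjugates of `σ` has at most `|G| / |Z(σ)|` elements -/
theorem ch2_card_mul_card_centralizer_le {G : Type*} [Group G] [Finite G] (σ : G)
    (S : Finset G) (hS : ∀ τ ∈ S, IsConj σ τ) :
    S.card * Nat.card (Subgroup.centralizer ({σ} : Set G)) ≤ Nat.card G := by
  classical
  have hex : ∀ τ : G, ∃ c : G, τ ∈ S → c * σ * c⁻¹ = τ := by
    intro τ
    by_cases h : τ ∈ S
    · obtain ⟨c, hc⟩ := isConj_iff.mp (hS τ h)
      exact ⟨c, fun _ => hc⟩
    · exact ⟨1, fun h' => absurd h' h⟩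
  choose c hc using hex
  let f : (↥S) × ↥(Subgroup.centralizer ({σ} : Set G)) → G := fun x => c x.1 * x.2
  have hz : ∀ z : ↥(Subgroup.centralizer ({σ} : Set G)), (z : G) * σ * (z : G)⁻¹ = σ := by
    intro z
    have h1 := (Subgroup.mem_centralizer_iff.mp z.2) σ (Set.mem_singleton σ)
    rw [← h1, mul_inv_cancel_right]
  have hf : Function.Injective f := by
    rintro ⟨⟨τ, hτ⟩, z⟩ ⟨⟨τ', hτ'⟩, z'⟩ h
    simp only [f] at h
    have h1 : τ = τ' := by
      have e1 : (c τ * z) * σ * (c τ * z)⁻¹ = τ := by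
        have : (c τ * z) * σ * (c τ * z)⁻¹ = c τ * ((z : G) * σ * (z : G)⁻¹) * (c τ)⁻¹ := by
          group
        rw [this, hz z, hc τ hτ]
      have e2 : (c τ' * z') * σ * (c τ' * z')⁻¹ = τ' := by
        have : (c τ' * z') * σ * (c τ' * z')⁻¹ = c τ' * ((z' : G) * σ * (z' : G)⁻¹) * (c τ')⁻¹ := by
          group
        rw [this, hz z', hc τ' hτ']
      rw [← e1, ← e2, h]
    subst h1
    have h2 : (z : G) = z' := mul_left_cancel h
    rw [Subtype.ext h2]
  have h1 := Nat.card_le_card_of_injective f hf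
  rw [Nat.card_prod, Nat.card_eq_fintype_card (α := ↥S), Fintype.card_coe] at h1
  exact h1

variable {K : Type} [Field K] [NumberField K] [IsGalois ℚ K]

omit [IsGalois ℚ K] in
/-- the action of the Galois group on `𝓞 K` is the one of the statement -/
theorem ch2_smul_eq (g : K ≃ₐ[ℚ] K) (x : 𝓞 K) :
    g • x = NumberField.RingOfIntegers.mapRingEquiv g.toRingEquiv x := by
  apply NumberField.RingOfIntegers.ext
  rfl

/-- Frobenius elements at primes over the same unramified prime are conjugate. -/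
theorem ch2_isConj_of_frob {p : ℕ} (hp : p.Prime) (hdisc : ¬ ((p : ℤ) ∣ NumberField.discr K))
    (σ τ : K ≃ₐ[ℚ] K) (v w : Ideal (𝓞 K)) [hv : v.IsPrime] [hw : w.IsPrime]
    (hpv : ((p : ℕ) : 𝓞 K) ∈ v) (hpw : ((p : ℕ) : 𝓞 K) ∈ w)
    (hσ : ∀ x : 𝓞 K, σ • x - x ^ p ∈ v) (hτ : ∀ x : 𝓞 K, τ • x - x ^ p ∈ w) :
    IsConj σ τ := by
  have hp' : Prime (p : ℤ) := Nat.prime_iff_prime_int.mp hp
  have hvo : v.LiesOver (Ideal.span {(p : ℤ)}) :=
    Fermat.Agent.H73.ChebCore.liesOver_span_of_mem hp v hpv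
  have hwo : w.LiesOver (Ideal.span {(p : ℤ)}) :=
    Fermat.Agent.H73.ChebCore.liesOver_span_of_mem hp w hpw
  have hun : Algebra.IsUnramifiedAt ℤ w :=
    (NumberField.not_dvd_discr_iff_forall_mem K (𝓞 K) hp').mp hdisc w inferInstance
      (by simpa using hpw)
  obtain ⟨h, hh⟩ := Ideal.exists_smul_eq_of_isGaloisGroup (Ideal.span {(p : ℤ)}) v w
    (K ≃ₐ[ℚ] K)
  -- `ρ = h σ h⁻¹` is a Frobenius at `w`
  have hρ : ∀ x : 𝓞 K, (h * σ * h⁻¹) • x - x ^ p ∈ w := by
    intro x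
    have h1 : (h * σ * h⁻¹) • x - x ^ p = h • (σ • (h⁻¹ • x) - (h⁻¹ • x) ^ p) := by
      rw [smul_sub, smul_pow', smul_inv_smul, mul_smul, mul_smul]
    rw [h1, ← hh]
    exact Ideal.smul_mem_pointwise_smul _ _ _ (hσ _)
  have hρst := Fermat.Agent.H73.ChebCore.mem_stabilizer_of_frob hp w (h * σ * h⁻¹) hρ
  have hkey : (h * σ * h⁻¹)⁻¹ * τ = 1 := by
    refine Fermat.Agent.H73.ChebCore.eq_one_of_forall_sub_mem hp w hpw hun _ (fun x => ?_)
    have h1 : ((h * σ * h⁻¹)⁻¹ * τ) • x - x =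
        (h * σ * h⁻¹)⁻¹ • (τ • x - (h * σ * h⁻¹) • x) := by
      rw [smul_sub, inv_smul_smul, mul_smul]
    rw [h1]
    have h2 : τ • x - (h * σ * h⁻¹) • x ∈ w := by
      have := w.sub_mem (hτ x) (hρ x)
      simpa using this
    have h3 : (h * σ * h⁻¹)⁻¹ • w = w := by
      have := MulAction.mem_stabilizer_iff.mp (inv_mem hρst)
      exact this
    rw [← h3]
    exact Ideal.smul_mem_pointwise_smul _ _ _ h2
  rw [isConj_iff]
  exact ⟨h, (inv_mul_eq_one.mp hkey)⟩

end Fermat.Agent.H50
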