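import Mathlib
import Fermat.Agent.H62.Cheb2.Interfaces
import Fermat.Agent.H50.Cheb2.SumCore

/-!
# P-CHEB phase 2, row 450 (CH2-SUM)

`chebotarevDensityNF : ChebotarevElementStatement → ChebotarevDensityNFStatement`.

For `σ ∈ C` let `n σ = #{τ ∈ C | τ ∼ σ}`.  At an unramified prime `p` all Frobenius elements are
conjugate, so `∑_{σ ∈ C} (1 / n σ) 1_{Frob_p ∋ σ} ≤ 1_{Frob_p ∩ C ≠ ∅}`, and
`(1 / n σ) (1 / |Z(σ)|) ≥ 1 / |G|`.
-/

set_option autoImplicit false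
set_option linter.unusedSectionVars false

open NumberField Ideal IsDedekindDomain
open scoped Pointwise Classical

namespace Fermat.Agent.H50

open Fermat.Agent.H62.Cheb2

variable {K : Type} [Field K] [NumberField K] [IsGalois ℚ K]

theorem ch2_frobPrimes_isConj {σ τ : K ≃ₐ[ℚ] K} {p : Nat.Primes}
    (hσ : p ∈ frobPrimes K {σ}) (hτ : p ∈ frobPrimes K {τ}) : IsConj σ τ := by
  obtain ⟨hd, g, hg, v, hv, hpv, hF⟩ := hσ
  obtain ⟨-, g', hg', w, hw, hpw, hF'⟩ := hτ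
  rw [Set.mem_singleton_iff] at hg hg'
  subst hg hg'
  exact ch2_isConj_of_frob p.2 hd g g' v w hpv hpw
    (fun x => by rw [ch2_smul_eq]; exact hF x) (fun x => by rw [ch2_smul_eq]; exact hF' x)

omit [IsGalois ℚ K] in
theorem ch2_frobPrimes_mono {C C' : Set (K ≃ₐ[ℚ] K)} (h : C ⊆ C') :
    frobPrimes K C ⊆ frobPrimes K C' := by
  rintro p ⟨hd, g, hg, hv⟩
  exact ⟨hd, g, h hg, hv⟩

omit [IsGalois ℚ K] in
theorem ch2_term_nonneg (C : Set (K ≃ₐ[ℚ] K)) (T : Finset ℕ) (s : ℝ) (p : Nat.Primes) :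
    0 ≤ (if p ∈ frobPrimes K C ∧ (p : ℕ) ∉ T then ((p : ℕ) : ℝ) ^ (-s) else 0) := by
  split_ifs
  · exact Real.rpow_nonneg (Nat.cast_nonneg _) _
  · exact le_rfl

omit [IsGalois ℚ K] in
theorem ch2_term_le (C : Set (K ≃ₐ[ℚ] K)) (T : Finset ℕ) (s : ℝ) (p : Nat.Primes) :
    (if p ∈ frobPrimes K C ∧ (p : ℕ) ∉ T then ((p : ℕ) : ℝ) ^ (-s) else 0) ≤
      ((p : ℕ) : ℝ) ^ (-s) := by
  split_ifs
  · exact le_rfl
  · exact Real.rpow_nonneg (Nat.cast_nonneg _) _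

omit [IsGalois ℚ K] in
theorem ch2_summable (C : Set (K ≃ₐ[ℚ] K)) (T : Finset ℕ) {s : ℝ} (hs : 1 < s) :
    Summable (fun p : Nat.Primes =>
      if p ∈ frobPrimes K C ∧ (p : ℕ) ∉ T then ((p : ℕ) : ℝ) ^ (-s) else 0) :=
  Summable.of_nonneg_of_le (ch2_term_nonneg C T s) (ch2_term_le C T s)
    (Nat.Primes.summable_rpow.mpr (by linarith))

omit [IsGalois ℚ K] in
theorem ch2_frobSum_nonneg (C : Set (K ≃ₐ[ℚ] K)) (T : Finset ℕ) (s : ℝ) :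
    0 ≤ frobSum K C T s :=
  tsum_nonneg (ch2_term_nonneg C T s)

/-- the number of elements of `S` conjugate to `σ` -/
noncomputable def ch2Mult (S : Finset (K ≃ₐ[ℚ] K)) (σ : K ≃ₐ[ℚ] K) : ℕ :=
  (S.filter (fun τ => IsConj σ τ)).card

theorem ch2Mult_pos {S : Finset (K ≃ₐ[ℚ] K)} {σ : K ≃ₐ[ℚ] K} (hσ : σ ∈ S) : 0 < ch2Mult S σ :=
  Finset.card_pos.mpr ⟨σ, Finset.mem_filter.mpr ⟨hσ, IsConj.refl σ⟩⟩

/-- the pointwise inequality -/
theorem ch2_pointwise (C : Set (K ≃ₐ[ℚ] K)) (S : Finset (K ≃ₐ[ℚ] K)) (hS : ∀ σ, σ ∈ S ↔ σ ∈ C)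
    (T : Finset ℕ) (s : ℝ) (p : Nat.Primes) :
    ∑ σ ∈ S, (1 / (ch2Mult S σ : ℝ)) *
        (if p ∈ frobPrimes K {σ} ∧ (p : ℕ) ∉ T then ((p : ℕ) : ℝ) ^ (-s) else 0) ≤
      (if p ∈ frobPrimes K C ∧ (p : ℕ) ∉ T then ((p : ℕ) : ℝ) ^ (-s) else 0) := by
  have hx : 0 ≤ ((p : ℕ) : ℝ) ^ (-s) := Real.rpow_nonneg (Nat.cast_nonneg _) _
  by_cases hT : (p : ℕ) ∈ T
  · simp [hT]
  set Sp : Finset (K ≃ₐ[ℚ] K) := S.filter (fun σ => p ∈ frobPrimes K {σ}) with hSp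
  have h1 : ∑ σ ∈ S, (1 / (ch2Mult S σ : ℝ)) *
        (if p ∈ frobPrimes K {σ} ∧ (p : ℕ) ∉ T then ((p : ℕ) : ℝ) ^ (-s) else 0) =
      ∑ σ ∈ Sp, (1 / (ch2Mult S σ : ℝ)) * ((p : ℕ) : ℝ) ^ (-s) := by
    rw [hSp, Finset.sum_filter]
    refine Finset.sum_congr rfl fun σ _ => ?_
    by_cases h : p ∈ frobPrimes K {σ}
    · simp [h, hT]
    · simp [h]
  rw [h1]
  rcases Finset.eq_empty_or_nonempty Sp with hemp | ⟨σ₀, hσ₀⟩
  · rw [hemp, Finset.sum_empty]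
    exact ch2_term_nonneg C T s p
  · have hσ₀' := Finset.mem_filter.mp hσ₀
    have hpC : p ∈ frobPrimes K C :=
      ch2_frobPrimes_mono (Set.singleton_subset_iff.mpr ((hS σ₀).mp hσ₀'.1)) hσ₀'.2
    rw [if_pos ⟨hpC, hT⟩]
    have hcard : (0 : ℝ) < (Sp.card : ℝ) := by
      exact_mod_cast Finset.card_pos.mpr ⟨σ₀, hσ₀⟩
    have h2 : ∀ σ ∈ Sp, (1 / (ch2Mult S σ : ℝ)) * ((p : ℕ) : ℝ) ^ (-s) ≤
        (1 / (Sp.card : ℝ)) * ((p : ℕ) : ℝ) ^ (-s) := by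
      intro σ hσ
      have hσ' := Finset.mem_filter.mp hσ
      have hsub : Sp ⊆ S.filter (fun τ => IsConj σ τ) := by
        intro τ hτ
        have hτ' := Finset.mem_filter.mp hτ
        exact Finset.mem_filter.mpr ⟨hτ'.1, ch2_frobPrimes_isConj hσ'.2 hτ'.2⟩
      have hle : (Sp.card : ℝ) ≤ (ch2Mult S σ : ℝ) := by
        exact_mod_cast Finset.card_le_card hsub
      exact mul_le_mul_of_nonneg_right (one_div_le_one_div_of_le hcard hle) hx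
    calc ∑ σ ∈ Sp, (1 / (ch2Mult S σ : ℝ)) * ((p : ℕ) : ℝ) ^ (-s)
        ≤ ∑ _σ ∈ Sp, (1 / (Sp.card : ℝ)) * ((p : ℕ) : ℝ) ^ (-s) := Finset.sum_le_sum h2
      _ = ((p : ℕ) : ℝ) ^ (-s) := by
        rw [Finset.sum_const, nsmul_eq_mul]
        field_simp

/-- the weighted sum of the one-element Frobenius sums is bounded by the Frobenius sum of `C` -/
theorem ch2_sum_le (C : Set (K ≃ₐ[ℚ] K)) (S : Finset (K ≃ₐ[ℚ] K)) (hS : ∀ σ, σ ∈ S ↔ σ ∈ C)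
    (T : Finset ℕ) {s : ℝ} (hs : 1 < s) :
    ∑ σ ∈ S, (1 / (ch2Mult S σ : ℝ)) * frobSum K {σ} T s ≤ frobSum K C T s := by
  have h1 : ∑ σ ∈ S, (1 / (ch2Mult S σ : ℝ)) * frobSum K {σ} T s =
      ∑' p : Nat.Primes, ∑ σ ∈ S, (1 / (ch2Mult S σ : ℝ)) *
        (if p ∈ frobPrimes K {σ} ∧ (p : ℕ) ∉ T then ((p : ℕ) : ℝ) ^ (-s) else 0) := by
    rw [Summable.tsum_finsetSum (fun σ _ => (ch2_summable {σ} T hs).mul_left _)]
    refine Finset.sum_congr rfl fun σ _ => ?_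
    rw [tsum_mul_left]
    rfl
  rw [h1]
  refine Summable.tsum_le_tsum (ch2_pointwise C S hS T s) ?_ (ch2_summable C T hs)
  exact summable_sum (fun σ _ => (ch2_summable {σ} T hs).mul_left _)

/-- the weight inequality `(1 / n σ) (1 / |Z(σ)|) ≥ 1 / |G|` -/
theorem ch2_weight (S : Finset (K ≃ₐ[ℚ] K)) {σ : K ≃ₐ[ℚ] K} (hσ : σ ∈ S) :
    1 / (Nat.card (K ≃ₐ[ℚ] K) : ℝ) ≤ (1 / (ch2Mult S σ : ℝ)) *
      (1 / (Nat.card (Subgroup.centralizer ({σ} : Set (K ≃ₐ[ℚ] K))) : ℝ)) := by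
  have h1 := ch2_card_mul_card_centralizer_le σ (S.filter (fun τ => IsConj σ τ))
    (fun τ hτ => (Finset.mem_filter.mp hτ).2)
  have h2 : (0 : ℝ) < (ch2Mult S σ : ℝ) := by exact_mod_cast ch2Mult_pos hσ
  have h3 : (0 : ℝ) < (Nat.card (Subgroup.centralizer ({σ} : Set (K ≃ₐ[ℚ] K))) : ℝ) := by
    exact_mod_cast Nat.card_pos
  have h4 : ((ch2Mult S σ : ℝ)) *
      (Nat.card (Subgroup.centralizer ({σ} : Set (K ≃ₐ[ℚ] K))) : ℝ) ≤
        (Nat.card (K ≃ₐ[ℚ] K) : ℝ) := by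
    exact_mod_cast h1
  rw [one_div_mul_one_div]
  exact one_div_le_one_div_of_le (mul_pos h2 h3) h4

/-- **CH2-SUM.** -/
theorem chebotarevDensityNF (h : ChebotarevElementStatement) : ChebotarevDensityNFStatement := by
  intro K _ _ _ C T ε hε
  have hfin : C.Finite := Set.toFinite C
  set S : Finset (K ≃ₐ[ℚ] K) := hfin.toFinset with hSdef
  have hS : ∀ σ, σ ∈ S ↔ σ ∈ C := fun σ => hfin.mem_toFinset
  have hcard : C.ncard = S.card := Set.ncard_eq_toFinset_card C hfin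
  set ε' : ℝ := ε / ((S.card : ℝ) + 1) with hε'def
  have hSc : (0 : ℝ) ≤ (S.card : ℝ) := Nat.cast_nonneg _
  have hε' : 0 < ε' := div_pos hε (by linarith)
  have hSε : (S.card : ℝ) * ε' ≤ ε := by
    rw [hε'def, mul_div_assoc']
    rw [div_le_iff₀ (by linarith)]
    nlinarith
  choose δ hδ0 hδ using fun σ : K ≃ₐ[ℚ] K => h K σ T ε' hε'
  obtain ⟨σm, hσm⟩ := Finite.exists_min δ
  refine ⟨min 1 (δ σm), lt_min one_pos (hδ0 σm), fun s hs1 hs2 => ?_⟩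
  have hs3 : s < 1 + 1 := lt_of_lt_of_le hs2 (by linarith [min_le_left 1 (δ σm)])
  have hs4 : ∀ σ, s < 1 + δ σ := fun σ =>
    lt_of_lt_of_le hs2 (by linarith [min_le_right 1 (δ σm), hσm σ])
  have hL : 0 ≤ Real.log (1 / (s - 1)) := by
    apply Real.log_nonneg
    rw [le_div_iff₀ (by linarith)]
    linarith
  have hG : (0 : ℝ) < (Nat.card (K ≃ₐ[ℚ] K) : ℝ) := by exact_mod_cast Nat.card_pos
  refine le_trans ?_ (ch2_sum_le C S hS T hs1)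
  have hterm : ∀ σ ∈ S, (1 / (Nat.card (K ≃ₐ[ℚ] K) : ℝ) - ε') * Real.log (1 / (s - 1)) ≤
      (1 / (ch2Mult S σ : ℝ)) * frobSum K {σ} T s := by
    intro σ hσ
    have h1 := hδ σ s hs1 (hs4 σ)
    have h2 := ch2_weight S hσ
    have hw0 : (0 : ℝ) < (ch2Mult S σ : ℝ) := by exact_mod_cast ch2Mult_pos hσ
    have hw1 : (1 : ℝ) ≤ (ch2Mult S σ : ℝ) := by exact_mod_cast ch2Mult_pos hσ
    have hw : 1 / (ch2Mult S σ : ℝ) ≤ 1 := by
      rw [div_le_one hw0]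
      exact hw1
    have hw' : 0 ≤ 1 / (ch2Mult S σ : ℝ) := by positivity
    calc (1 / (Nat.card (K ≃ₐ[ℚ] K) : ℝ) - ε') * Real.log (1 / (s - 1))
        ≤ ((1 / (ch2Mult S σ : ℝ)) *
            (1 / (Nat.card (Subgroup.centralizer ({σ} : Set (K ≃ₐ[ℚ] K))) : ℝ) - ε')) *
              Real.log (1 / (s - 1)) := by
          apply mul_le_mul_of_nonneg_right _ hL
          have : (1 / (ch2Mult S σ : ℝ)) * ε' ≤ ε' := by
            calc (1 / (ch2Mult S σ : ℝ)) * ε' ≤ 1 * ε' :=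
                  mul_le_mul_of_nonneg_right hw hε'.le
              _ = ε' := one_mul _
          rw [mul_sub]
          linarith
      _ = (1 / (ch2Mult S σ : ℝ)) *
            ((1 / (Nat.card (Subgroup.centralizer ({σ} : Set (K ≃ₐ[ℚ] K))) : ℝ) - ε') *
              Real.log (1 / (s - 1))) := by ring
      _ ≤ (1 / (ch2Mult S σ : ℝ)) * frobSum K {σ} T s :=
          mul_le_mul_of_nonneg_left h1 hw'
  calc ((C.ncard : ℝ) / (Nat.card (K ≃ₐ[ℚ] K) : ℝ) - ε) * Real.log (1 / (s - 1))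
      ≤ ((S.card : ℝ) * (1 / (Nat.card (K ≃ₐ[ℚ] K) : ℝ) - ε')) * Real.log (1 / (s - 1)) := by
        apply mul_le_mul_of_nonneg_right _ hL
        rw [hcard, mul_sub, mul_one_div]
        linarith
    _ = ∑ _σ ∈ S, (1 / (Nat.card (K ≃ₐ[ℚ] K) : ℝ) - ε') * Real.log (1 / (s - 1)) := by
        rw [Finset.sum_const, nsmul_eq_mul]
        ring
    _ ≤ ∑ σ ∈ S, (1 / (ch2Mult S σ : ℝ)) * frobSum K {σ} T s := Finset.sum_le_sum hterm

end Fermat.Agent.H50
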